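-- Part V of the S24 project: the projective line over ZMod N as an SL(2,Z)-set.
import Mathlib

set_option autoImplicit false

namespace Fermat.Agent.S24.PartV

open Matrix
open scoped MatrixGroups

section ZModLemmas

/-- An integer whose class mod `N` is a unit is coprime to `N`. -/
theorem isCoprime_of_isUnit_intCast {N : ℕ} {y : ℤ} (h : IsUnit ((y : ℤ) : ZMod N)) :
    IsCoprime y (N : ℤ) := by
  obtain ⟨w, hw⟩ := h.exists_right_inv
  have h1 : ((y * (ZMod.cast w : ℤ) : ℤ) : ZMod N) = ((1 : ℤ) : ZMod N) := by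
    push_cast
    exact hw
  rw [ZMod.intCast_eq_intCast_iff, Int.modEq_iff_dvd] at h1
  obtain ⟨k, hk⟩ := h1
  exact ⟨(ZMod.cast w : ℤ), k, by linarith⟩

theorem isUnit_intCast_of_isCoprime {N : ℕ} {y : ℤ} (h : IsCoprime y (N : ℤ)) :
    IsUnit ((y : ℤ) : ZMod N) := by
  obtain ⟨a, b, hab⟩ := h
  have := congrArg (Int.cast : ℤ → ZMod N) hab
  push_cast at this
  rw [ZMod.natCast_self, mul_zero, add_zero] at this
  exact IsUnit.of_mul_eq_one _ (by rw [mul_comm]; exact this)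

/-- the unit of `ZMod N` attached to an integer coprime to `N` -/
noncomputable def unitOfInt {N : ℕ} (y : ℤ) (h : IsCoprime y (N : ℤ)) : (ZMod N)ˣ :=
  (isUnit_intCast_of_isCoprime h).unit

@[simp] theorem unitOfInt_val {N : ℕ} (y : ℤ) (h : IsCoprime y (N : ℤ)) :
    ((unitOfInt y h : (ZMod N)ˣ) : ZMod N) = (y : ZMod N) := rfl

theorem exists_int_of_unit {N : ℕ} (u : (ZMod N)ˣ) :
    ∃ y : ℤ, IsCoprime y (N : ℤ) ∧ ((y : ℤ) : ZMod N) = (u : ZMod N) := by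
  refine ⟨(ZMod.cast (u : ZMod N) : ℤ), ?_, ZMod.intCast_zmod_cast _⟩
  apply isCoprime_of_isUnit_intCast
  rw [ZMod.intCast_zmod_cast]
  exact u.isUnit

/-- lifting an integer coprime to `M` to one coprime to `N`, for `M ∣ N`. -/
theorem exists_lift_coprime {M N : ℕ} [NeZero N] (hMN : M ∣ N) {x : ℤ} (hx : IsCoprime x (M : ℤ)) :
    ∃ y : ℤ, y ≡ x [ZMOD (M : ℤ)] ∧ IsCoprime y (N : ℤ) := by
  obtain ⟨u, hu⟩ := ZMod.unitsMap_surjective hMN (unitOfInt x hx)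
  obtain ⟨y, hy, hyu⟩ := exists_int_of_unit u
  refine ⟨y, ?_, hy⟩
  rw [← ZMod.intCast_eq_intCast_iff]
  have h1 : ((ZMod.unitsMap hMN u : (ZMod M)ˣ) : ZMod M) = (x : ZMod M) := by
    rw [hu, unitOfInt_val]
  rw [ZMod.unitsMap_val, ← hyu, ZMod.cast_intCast hMN] at h1
  exact h1

/-- primitivity of an integer pair modulo `N` -/
theorem isCoprime_intCast_iff {N : ℕ} (A C : ℤ) :
    IsCoprime ((A : ℤ) : ZMod N) ((C : ℤ) : ZMod N) ↔ ∃ x y k : ℤ, x * A + y * C + k * N = 1 := by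
  constructor
  · rintro ⟨x, y, hxy⟩
    have h1 : (((ZMod.cast x : ℤ) * A + (ZMod.cast y : ℤ) * C : ℤ) : ZMod N) = ((1 : ℤ) : ZMod N) := by
      push_cast
      exact hxy
    rw [ZMod.intCast_eq_intCast_iff, Int.modEq_iff_dvd] at h1
    obtain ⟨k, hk⟩ := h1
    exact ⟨ZMod.cast x, ZMod.cast y, k, by linarith⟩
  · rintro ⟨x, y, k, h⟩
    have := congrArg (Int.cast : ℤ → ZMod N) h
    push_cast at this
    rw [ZMod.natCast_self, mul_zero, add_zero] at this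
    exact ⟨x, y, this⟩

end ZModLemmas

/-- Primitive pairs modulo `N`. -/
def Prim (N : ℕ) : Type := {v : ZMod N × ZMod N // IsCoprime v.1 v.2}

namespace Prim

variable {N : ℕ}

@[ext] theorem ext {v w : Prim N} (h1 : v.1.1 = w.1.1) (h2 : v.1.2 = w.1.2) : v = w :=
  Subtype.ext (Prod.ext h1 h2)

instance : SMul (ZMod N)ˣ (Prim N) where
  smul u v := ⟨((u : ZMod N) * v.1.1, (u : ZMod N) * v.1.2), by
    obtain ⟨x, y, hxy⟩ := v.2
    refine ⟨x * ((u⁻¹ : (ZMod N)ˣ) : ZMod N), y * ((u⁻¹ : (ZMod N)ˣ) : ZMod N), ?_⟩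
    have hu : ((u⁻¹ : (ZMod N)ˣ) : ZMod N) * (u : ZMod N) = 1 := by
      rw [← Units.val_mul, inv_mul_cancel, Units.val_one]
    calc x * ((u⁻¹ : (ZMod N)ˣ) : ZMod N) * ((u : ZMod N) * v.1.1)
          + y * ((u⁻¹ : (ZMod N)ˣ) : ZMod N) * ((u : ZMod N) * v.1.2)
        = (((u⁻¹ : (ZMod N)ˣ) : ZMod N) * (u : ZMod N)) * (x * v.1.1 + y * v.1.2) := by ring
      _ = 1 := by rw [hu, hxy, one_mul]⟩

@[simp] theorem units_smul_fst (u : (ZMod N)ˣ) (v : Prim N) : (u • v).1.1 = (u : ZMod N) * v.1.1 := rfl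
@[simp] theorem units_smul_snd (u : (ZMod N)ˣ) (v : Prim N) : (u • v).1.2 = (u : ZMod N) * v.1.2 := rfl

instance : MulAction (ZMod N)ˣ (Prim N) where
  one_smul v := by ext <;> simp
  mul_smul u u' v := by ext <;> simp [mul_assoc]

/-- the action of `SL(2,ℤ)` on primitive pairs, as column vectors -/
instance : SMul SL(2, ℤ) (Prim N) where
  smul γ v := ⟨(((γ 0 0 : ℤ) : ZMod N) * v.1.1 + ((γ 0 1 : ℤ) : ZMod N) * v.1.2,
      ((γ 1 0 : ℤ) : ZMod N) * v.1.1 + ((γ 1 1 : ℤ) : ZMod N) * v.1.2), by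
    obtain ⟨x, y, hxy⟩ := v.2
    have hdet : ((γ 0 0 : ℤ) : ZMod N) * ((γ 1 1 : ℤ) : ZMod N)
        - ((γ 0 1 : ℤ) : ZMod N) * ((γ 1 0 : ℤ) : ZMod N) = 1 := by
      have h := γ.det_coe
      rw [Matrix.det_fin_two] at h
      have := congrArg (Int.cast : ℤ → ZMod N) h
      push_cast at this
      exact this
    refine ⟨x * ((γ 1 1 : ℤ) : ZMod N) - y * ((γ 1 0 : ℤ) : ZMod N),
      y * ((γ 0 0 : ℤ) : ZMod N) - x * ((γ 0 1 : ℤ) : ZMod N), ?_⟩
    calc _ = (((γ 0 0 : ℤ) : ZMod N) * ((γ 1 1 : ℤ) : ZMod N)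
        - ((γ 0 1 : ℤ) : ZMod N) * ((γ 1 0 : ℤ) : ZMod N)) * (x * v.1.1 + y * v.1.2) := by ring
      _ = 1 := by rw [hdet, hxy, one_mul]⟩

@[simp] theorem sl_smul_fst (γ : SL(2, ℤ)) (v : Prim N) :
    (γ • v).1.1 = ((γ 0 0 : ℤ) : ZMod N) * v.1.1 + ((γ 0 1 : ℤ) : ZMod N) * v.1.2 := rfl
@[simp] theorem sl_smul_snd (γ : SL(2, ℤ)) (v : Prim N) :
    (γ • v).1.2 = ((γ 1 0 : ℤ) : ZMod N) * v.1.1 + ((γ 1 1 : ℤ) : ZMod N) * v.1.2 := rfl

instance : MulAction SL(2, ℤ) (Prim N) where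
  one_smul v := by ext <;> simp
  mul_smul γ γ' v := by
    ext
    · simp only [sl_smul_fst, sl_smul_snd]
      rw [Matrix.SpecialLinearGroup.coe_mul, Matrix.mul_apply, Matrix.mul_apply,
        Fin.sum_univ_two, Fin.sum_univ_two]
      push_cast
      ring
    · simp only [sl_smul_fst, sl_smul_snd]
      rw [Matrix.SpecialLinearGroup.coe_mul, Matrix.mul_apply, Matrix.mul_apply,
        Fin.sum_univ_two, Fin.sum_univ_two]
      push_cast
      ring

instance : SMulCommClass SL(2, ℤ) (ZMod N)ˣ (Prim N) where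
  smul_comm γ u v := by
    ext
    · simp only [sl_smul_fst, units_smul_fst, units_smul_snd]; ring
    · simp only [sl_smul_snd, units_smul_fst, units_smul_snd]; ring

end Prim



/-- The projective line over `ZMod N`. -/
def P1 (N : ℕ) : Type := MulAction.orbitRel.Quotient (ZMod N)ˣ (Prim N)

namespace P1

variable {N : ℕ}

/-- the class of a primitive pair -/
def mk (v : Prim N) : P1 N := Quotient.mk'' v

theorem mk_surjective : Function.Surjective (mk : Prim N → P1 N) := Quotient.mk''_surjective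

theorem mk_eq_mk_iff (v w : Prim N) : mk v = mk w ↔ ∃ u : (ZMod N)ˣ, u • w = v := by
  show (Quotient.mk'' v : Quotient (MulAction.orbitRel (ZMod N)ˣ (Prim N))) = Quotient.mk'' w ↔ _
  rw [Quotient.eq'']
  rfl

theorem mk_units_smul (u : (ZMod N)ˣ) (v : Prim N) : mk (u • v) = mk v :=
  (mk_eq_mk_iff _ _).mpr ⟨u, rfl⟩

instance : SMul SL(2, ℤ) (P1 N) where
  smul γ := Quotient.map' (fun v => γ • v) (by
    rintro v w ⟨u, rfl⟩
    exact ⟨u, (smul_comm γ u w).symm⟩)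

@[simp] theorem smul_mk (γ : SL(2, ℤ)) (v : Prim N) : γ • mk v = mk (γ • v) := rfl

instance : MulAction SL(2, ℤ) (P1 N) where
  one_smul x := by
    obtain ⟨v, rfl⟩ := mk_surjective x
    rw [smul_mk, one_smul]
  mul_smul γ γ' x := by
    obtain ⟨v, rfl⟩ := mk_surjective x
    rw [smul_mk, smul_mk, smul_mk, mul_smul]

instance [NeZero N] : Finite (Prim N) := by
  unfold Prim
  infer_instance

instance [NeZero N] : Finite (P1 N) := by
  unfold P1 MulAction.orbitRel.Quotient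
  infer_instance

end P1

namespace Prim

variable {N : ℕ}

/-- primitive pair from integers -/
def ofInt (A C : ℤ) (h : ∃ x y k : ℤ, x * A + y * C + k * N = 1) : Prim N :=
  ⟨((A : ZMod N), (C : ZMod N)), (isCoprime_intCast_iff A C).mpr h⟩

@[simp] theorem ofInt_fst (A C : ℤ) (h : ∃ x y k : ℤ, x * A + y * C + k * N = 1) :
    (ofInt A C h : Prim N).1.1 = (A : ZMod N) := rfl

@[simp] theorem ofInt_snd (A C : ℤ) (h : ∃ x y k : ℤ, x * A + y * C + k * N = 1) :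
    (ofInt A C h : Prim N).1.2 = (C : ZMod N) := rfl

theorem exists_eq_ofInt (v : Prim N) : ∃ (A C : ℤ) (h : ∃ x y k : ℤ, x * A + y * C + k * N = 1),
    v = ofInt A C h := by
  have h0 : IsCoprime (((ZMod.cast v.1.1 : ℤ) : ℤ) : ZMod N) (((ZMod.cast v.1.2 : ℤ) : ℤ) : ZMod N) := by
    rw [ZMod.intCast_zmod_cast, ZMod.intCast_zmod_cast]
    exact v.2
  refine ⟨ZMod.cast v.1.1, ZMod.cast v.1.2, (isCoprime_intCast_iff _ _).mp h0, ?_⟩
  ext
  · rw [ofInt_fst, ZMod.intCast_zmod_cast]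
  · rw [ofInt_snd, ZMod.intCast_zmod_cast]

end Prim

namespace P1

variable {N : ℕ}

/-- equality of points in terms of integer representatives -/
theorem mk_ofInt_eq_iff (A C A' C' : ℤ) (h h') :
    mk (Prim.ofInt A C h : Prim N) = mk (Prim.ofInt A' C' h') ↔
      ∃ U : ℤ, IsCoprime U (N : ℤ) ∧ A ≡ U * A' [ZMOD (N : ℤ)] ∧ C ≡ U * C' [ZMOD (N : ℤ)] := by
  rw [mk_eq_mk_iff]
  constructor
  · rintro ⟨u, hu⟩
    obtain ⟨U, hU, hUu⟩ := exists_int_of_unit u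
    refine ⟨U, hU, ?_, ?_⟩
    · have := congrArg (fun w : Prim N => w.1.1) hu
      simp only [Prim.units_smul_fst, Prim.ofInt_fst] at this
      rw [← ZMod.intCast_eq_intCast_iff]
      push_cast
      rw [hUu, this]
    · have := congrArg (fun w : Prim N => w.1.2) hu
      simp only [Prim.units_smul_snd, Prim.ofInt_snd] at this
      rw [← ZMod.intCast_eq_intCast_iff]
      push_cast
      rw [hUu, this]
  · rintro ⟨U, hU, hA, hC⟩
    refine ⟨unitOfInt U hU, ?_⟩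
    rw [← ZMod.intCast_eq_intCast_iff] at hA hC
    push_cast at hA hC
    ext
    · rw [Prim.units_smul_fst, unitOfInt_val, Prim.ofInt_fst, Prim.ofInt_fst, hA]
    · rw [Prim.units_smul_snd, unitOfInt_val, Prim.ofInt_snd, Prim.ofInt_snd, hC]

/-- the point at infinity `(1 : 0)` -/
def infty : P1 N := mk (Prim.ofInt 1 0 ⟨1, 0, 0, by ring⟩)

theorem smul_infty (γ : SL(2, ℤ)) :
    γ • (infty : P1 N) = mk (Prim.ofInt (γ 0 0) (γ 1 0) (by
      have h := γ.det_coe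
      rw [Matrix.det_fin_two] at h
      exact ⟨γ 1 1, -γ 0 1, 0, by linarith⟩)) := by
  unfold infty
  rw [smul_mk]
  congr 1
  ext
  · simp
  · simp

theorem stabilizer_infty : MulAction.stabilizer SL(2, ℤ) (infty : P1 N) = CongruenceSubgroup.Gamma0 N := by
  ext γ
  rw [MulAction.mem_stabilizer_iff, CongruenceSubgroup.Gamma0_mem, smul_infty]
  unfold infty
  rw [mk_ofInt_eq_iff]
  constructor
  · rintro ⟨U, _, _, hC⟩
    rw [mul_zero] at hC
    rw [← Int.cast_zero, ZMod.intCast_eq_intCast_iff]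
    exact hC
  · intro h
    rw [← Int.cast_zero, ZMod.intCast_eq_intCast_iff] at h
    refine ⟨γ 0 0, ?_, by rw [mul_one], by rw [mul_zero]; exact h⟩
    have hd := γ.det_coe
    rw [Matrix.det_fin_two] at hd
    obtain ⟨k, hk⟩ := (Int.modEq_iff_dvd.mp h)
    refine ⟨γ 1 1, γ 0 1 * k, ?_⟩
    have : (γ 1 0 : ℤ) = - ((N : ℤ) * k) := by linarith
    rw [this] at hd
    linarith

end P1

namespace P1

variable {N : ℕ}

/-- the point `(A : C)` for coprime integers -/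
def pt (A C : ℤ) (h : IsCoprime A C) : P1 N :=
  mk (Prim.ofInt A C (by
    obtain ⟨a, b, hab⟩ := h
    exact ⟨a, b, 0, by rw [zero_mul, add_zero]; exact hab⟩))

theorem pt_eq_iff (A C A' C' : ℤ) (h : IsCoprime A C) (h' : IsCoprime A' C') :
    (pt A C h : P1 N) = pt A' C' h' ↔
      ∃ U : ℤ, IsCoprime U (N : ℤ) ∧ A ≡ U * A' [ZMOD (N : ℤ)] ∧ C ≡ U * C' [ZMOD (N : ℤ)] := by
  unfold pt
  rw [mk_ofInt_eq_iff]

theorem isCoprime_smul_aux (γ : SL(2, ℤ)) {A C : ℤ} (h : IsCoprime A C) :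
    IsCoprime (γ 0 0 * A + γ 0 1 * C) (γ 1 0 * A + γ 1 1 * C) := by
  obtain ⟨x, y, hxy⟩ := h
  have hd := γ.det_coe
  rw [Matrix.det_fin_two] at hd
  refine ⟨x * γ 1 1 - y * γ 1 0, y * γ 0 0 - x * γ 0 1, ?_⟩
  calc _ = (γ 0 0 * γ 1 1 - γ 0 1 * γ 1 0) * (x * A + y * C) := by ring
    _ = 1 := by rw [hd, hxy, one_mul]

theorem smul_pt (γ : SL(2, ℤ)) (A C : ℤ) (h : IsCoprime A C) :
    γ • (pt A C h : P1 N) =
      pt (γ 0 0 * A + γ 0 1 * C) (γ 1 0 * A + γ 1 1 * C) (isCoprime_smul_aux γ h) := by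
  unfold pt
  rw [smul_mk]
  congr 1
  ext
  · simp
  · simp

theorem infty_eq_pt : (infty : P1 N) = pt 1 0 isCoprime_one_left := rfl

/-- every coprime pair is the first column of a matrix in `SL(2,ℤ)` -/
theorem exists_smul_infty_eq_pt (A C : ℤ) (h : IsCoprime A C) :
    ∃ γ : SL(2, ℤ), γ • (infty : P1 N) = pt A C h := by
  obtain ⟨x, y, hxy⟩ := h
  have key : ∃ γ : SL(2, ℤ), γ 0 0 = A ∧ γ 1 0 = C :=
    ⟨⟨!![A, -y; C, x], by rw [Matrix.det_fin_two_of]; linarith⟩, rfl, rfl⟩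
  obtain ⟨γ, h00, h10⟩ := key
  refine ⟨γ, ?_⟩
  rw [infty_eq_pt, smul_pt]
  congr 1
  · rw [h00]; ring
  · rw [h10]; ring

/-- normal form of a point: `(A : d)` with `d ∣ N` -/
theorem exists_eq_pt [NeZero N] (p : P1 N) :
    ∃ (d : ℕ) (A : ℤ) (_ : d ∣ N) (h : IsCoprime A (d : ℤ)), p = pt A d h := by
  obtain ⟨v, rfl⟩ := mk_surjective p
  obtain ⟨A₀, C₀, ⟨x, y, k, hxyk⟩, rfl⟩ := Prim.exists_eq_ofInt v
  have hN : (N : ℤ) ≠ 0 := by exact_mod_cast NeZero.ne N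
  set d : ℕ := Int.gcd C₀ N with hd
  have hdN : (d : ℤ) ∣ (N : ℤ) := Int.gcd_dvd_right C₀ N
  have hdC : (d : ℤ) ∣ C₀ := Int.gcd_dvd_left C₀ N
  have hdpos : 0 < d := Int.gcd_pos_of_ne_zero_right _ hN
  have hd0 : (d : ℤ) ≠ 0 := by exact_mod_cast hdpos.ne'
  obtain ⟨M, hM⟩ := hdN
  obtain ⟨c₁, hc₁⟩ := hdC
  have hcop : IsCoprime c₁ M := by
    have h1 : Int.gcd (C₀ / d) ((N : ℤ) / d) = 1 := Int.gcd_div_gcd_div_gcd hdpos
    rw [hc₁, hM, Int.mul_ediv_cancel_left _ hd0, Int.mul_ediv_cancel_left _ hd0] at h1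
    exact Int.isCoprime_iff_gcd_eq_one.mpr h1
  have hMnat : ∃ M' : ℕ, (M' : ℤ) = M := by
    refine ⟨M.toNat, Int.toNat_of_nonneg ?_⟩
    by_contra hneg
    rw [not_le] at hneg
    have : (N : ℤ) < 0 := by
      rw [hM]
      exact mul_neg_of_pos_of_neg (by exact_mod_cast hdpos) hneg
    exact absurd this (by simp)
  obtain ⟨M', rfl⟩ := hMnat
  have hM'N : M' ∣ N := by
    rw [← Int.natCast_dvd_natCast, hM]
    exact Dvd.intro_left _ rfl
  obtain ⟨w, b, hwb⟩ := hcop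
  have hwcop : IsCoprime w (M' : ℤ) := ⟨c₁, b, by linarith⟩
  obtain ⟨U, hUw, hUN⟩ := exists_lift_coprime hM'N hwcop
  -- U * C₀ ≡ d mod N
  have hUC : (d : ℤ) ≡ U * C₀ [ZMOD (N : ℤ)] := by
    obtain ⟨t, ht⟩ := Int.modEq_iff_dvd.mp hUw
    rw [Int.modEq_iff_dvd]
    refine ⟨-(t * c₁ + b), ?_⟩
    have : w = U + M' * t := by linarith
    rw [hc₁, hM]
    have h2 : (U + M' * t) * c₁ + b * M' = 1 := by rw [← this]; exact hwb
    linear_combination (d : ℤ) * h2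
  have hAd : IsCoprime A₀ (d : ℤ) := by
    refine ⟨x, y * c₁ + k * M', ?_⟩
    rw [hc₁, hM] at hxyk
    linarith
  have hUd : IsCoprime U (d : ℤ) :=
    hUN.of_isCoprime_of_dvd_right (by rw [hM]; exact Dvd.intro _ rfl)
  refine ⟨d, U * A₀, ?_, hUd.mul_left hAd, ?_⟩
  · rw [← Int.natCast_dvd_natCast, hM]
    exact Dvd.intro _ rfl
  · unfold pt
    symm
    rw [mk_ofInt_eq_iff]
    exact ⟨U, hUN, Int.ModEq.refl _, hUC⟩

instance [NeZero N] : MulAction.IsPretransitive SL(2, ℤ) (P1 N) := by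
  refine ⟨fun p q => ?_⟩
  obtain ⟨d, A, _, h, rfl⟩ := exists_eq_pt p
  obtain ⟨d', A', _, h', rfl⟩ := exists_eq_pt q
  obtain ⟨γ, hγ⟩ := exists_smul_infty_eq_pt (N := N) A d h
  obtain ⟨γ', hγ'⟩ := exists_smul_infty_eq_pt (N := N) A' d' h'
  refine ⟨γ' * γ⁻¹, ?_⟩
  rw [← hγ, ← hγ', mul_smul, inv_smul_smul]

end P1

section Transfer

/-- an equivariant bijection from a coset space, for a transitive action -/
theorem exists_equivariant_equiv {G : Type*} [Group G] {Y : Type*} [MulAction G Y]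
    [MulAction.IsPretransitive G Y] (y₀ : Y) (H : Subgroup G)
    (hH : MulAction.stabilizer G y₀ = H) :
    ∃ e : G ⧸ H ≃ Y, ∀ (g : G) (x : G ⧸ H), e (g • x) = g • e x := by
  subst hH
  refine ⟨Equiv.ofBijective (MulAction.ofQuotientStabilizer G y₀)
    ⟨MulAction.injective_ofQuotientStabilizer G y₀, ?_⟩, ?_⟩
  · intro y
    obtain ⟨g, rfl⟩ := MulAction.exists_smul_eq G y₀ y
    exact ⟨QuotientGroup.mk g, MulAction.ofQuotientStabilizer_mk G y₀ g⟩
  · intro g x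
    exact MulAction.ofQuotientStabilizer_smul G y₀ g x

end Transfer

theorem exists_equiv_P1 (N : ℕ) [NeZero N] :
    ∃ e : SL(2, ℤ) ⧸ CongruenceSubgroup.Gamma0 N ≃ P1 N,
      ∀ (g : SL(2, ℤ)) (x : SL(2, ℤ) ⧸ CongruenceSubgroup.Gamma0 N), e (g • x) = g • e x :=
  exists_equivariant_equiv (P1.infty : P1 N) _ P1.stabilizer_infty



end Fermat.Agent.S24.PartV
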