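-- Part V of the S24 project: the projective line over ZMod N has dedekindPsi N points.
import Fermat.Agent.S24.PartV.P1
import Fermat.Prelude.Def_ModularCurve_GenusNumerics

set_option autoImplicit false

namespace Fermat.Agent.S24.PartV

open Matrix
open scoped MatrixGroups

section Free

variable {N : ℕ}

theorem Prim.stabilizer_eq_bot (v : Prim N) : MulAction.stabilizer (ZMod N)ˣ v = ⊥ := by
  rw [eq_bot_iff]
  intro u hu
  rw [MulAction.mem_stabilizer_iff] at hu
  rw [Subgroup.mem_bot]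
  have h1 := congrArg (fun w : Prim N => w.1.1) hu
  have h2 := congrArg (fun w : Prim N => w.1.2) hu
  simp only [Prim.units_smul_fst, Prim.units_smul_snd] at h1 h2
  obtain ⟨x, y, hxy⟩ := v.2
  apply Units.ext
  rw [Units.val_one]
  have : ((u : ZMod N) - 1) * (x * v.1.1 + y * v.1.2) = 0 := by
    linear_combination x * h1 + y * h2
  rw [hxy, mul_one] at this
  exact sub_eq_zero.mp this

theorem card_prim_eq (N : ℕ) [NeZero N] :
    Nat.card (Prim N) = Nat.card (P1 N) * Nat.totient N := by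
  have e := MulAction.selfEquivOrbitsQuotientProd (G := (ZMod N)ˣ) (X := Prim N)
    Prim.stabilizer_eq_bot
  rw [Nat.card_congr e, Nat.card_prod]
  congr 1
  rw [Nat.card_eq_fintype_card, ZMod.card_units_eq_totient]

end Free

section CRT

variable {R S T : Type*} [CommRing R] [CommRing S] [CommRing T]

theorem isCoprime_prod_mk {s₁ s₂ : S} {t₁ t₂ : T} (hs : IsCoprime s₁ s₂) (ht : IsCoprime t₁ t₂) :
    IsCoprime ((s₁, t₁) : S × T) (s₂, t₂) := by
  obtain ⟨x, y, hxy⟩ := hs
  obtain ⟨x', y', hxy'⟩ := ht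
  exact ⟨(x, x'), (y, y'), Prod.ext hxy hxy'⟩

/-- coprime pairs over a product ring -/
def coprimePairsEquiv (φ : R ≃+* S × T) :
    {v : R × R // IsCoprime v.1 v.2} ≃
      {v : S × S // IsCoprime v.1 v.2} × {v : T × T // IsCoprime v.1 v.2} where
  toFun v := (⟨((φ v.1.1).1, (φ v.1.2).1), v.2.map ((RingHom.fst S T).comp (φ : R →+* S × T))⟩,
    ⟨((φ v.1.1).2, (φ v.1.2).2), v.2.map ((RingHom.snd S T).comp (φ : R →+* S × T))⟩)
  invFun w := ⟨(φ.symm (w.1.1.1, w.2.1.1), φ.symm (w.1.1.2, w.2.1.2)),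
    (isCoprime_prod_mk w.1.2 w.2.2).map (φ.symm : S × T →+* R)⟩
  left_inv v := by
    apply Subtype.ext
    apply Prod.ext
    · simp
    · simp
  right_inv w := by
    apply Prod.ext
    · apply Subtype.ext
      apply Prod.ext <;> simp
    · apply Subtype.ext
      apply Prod.ext <;> simp

end CRT

theorem card_prim_mul {m n : ℕ} (h : m.Coprime n) :
    Nat.card (Prim (m * n)) = Nat.card (Prim m) * Nat.card (Prim n) := by
  unfold Prim
  rw [Nat.card_congr (coprimePairsEquiv (ZMod.chineseRemainder h)), Nat.card_prod]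

section PrimePower

theorem card_isUnit_zmod (N : ℕ) [NeZero N] : Nat.card {a : ZMod N // IsUnit a} = N.totient := by
  have e : (ZMod N)ˣ ≃ {a : ZMod N // IsUnit a} :=
    Equiv.ofBijective (fun u => ⟨(u : ZMod N), u.isUnit⟩)
      ⟨fun u u' h => Units.ext (congrArg Subtype.val h), fun ⟨a, u, hu⟩ => ⟨u, Subtype.ext hu⟩⟩
  rw [← Nat.card_congr e, Nat.card_eq_fintype_card, ZMod.card_units_eq_totient]

theorem card_not_isUnit_zmod (N : ℕ) [NeZero N] :
    Nat.card {a : ZMod N // ¬ IsUnit a} + N.totient = N := by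
  classical
  have h := Fintype.card_subtype_compl (fun a : ZMod N => IsUnit a)
  have h1 := card_isUnit_zmod N
  rw [Nat.card_eq_fintype_card] at h1 ⊢
  rw [h, h1, ZMod.card]
  exact Nat.sub_add_cancel (Nat.totient_le N)

theorem isCoprime_iff_isUnit_or {p k : ℕ} (hp : p.Prime) (hk : 0 < k) (a c : ZMod (p ^ k)) :
    IsCoprime a c ↔ IsUnit a ∨ IsUnit c := by
  constructor
  · intro h
    rw [← ZMod.intCast_zmod_cast a, ← ZMod.intCast_zmod_cast c, isCoprime_intCast_iff] at h
    obtain ⟨x, y, j, hxyj⟩ := h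
    set A : ℤ := ZMod.cast a with hA
    set C : ℤ := ZMod.cast c with hC
    have hpp : Prime (p : ℤ) := Nat.prime_iff_prime_int.mp hp
    by_cases hpA : (p : ℤ) ∣ A
    · by_cases hpC : (p : ℤ) ∣ C
      · exfalso
        have hpN : (p : ℤ) ∣ ((p ^ k : ℕ) : ℤ) := by
          rw [Nat.cast_pow]
          exact dvd_pow_self _ hk.ne'
        have : (p : ℤ) ∣ 1 := by
          rw [← hxyj]
          exact dvd_add (dvd_add (Dvd.dvd.mul_left hpA x) (Dvd.dvd.mul_left hpC y))
            (Dvd.dvd.mul_left hpN j)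
        exact hpp.not_isUnit (isUnit_of_dvd_one this)
      · right
        rw [← ZMod.intCast_zmod_cast c]
        apply isUnit_intCast_of_isCoprime
        rw [Nat.cast_pow]
        exact IsCoprime.pow_right ((Prime.coprime_iff_not_dvd hpp).mpr hpC).symm
    · left
      rw [← ZMod.intCast_zmod_cast a]
      apply isUnit_intCast_of_isCoprime
      rw [Nat.cast_pow]
      exact IsCoprime.pow_right ((Prime.coprime_iff_not_dvd hpp).mpr hpA).symm
  · rintro (h | h)
    · obtain ⟨b, hb⟩ := h.exists_left_inv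
      exact ⟨b, 0, by rw [hb, zero_mul, add_zero]⟩
    · obtain ⟨b, hb⟩ := h.exists_left_inv
      exact ⟨0, b, by rw [hb, zero_mul, zero_add]⟩

theorem card_prim_prime_pow {p k : ℕ} (hp : p.Prime) (hk : 0 < k) :
    Nat.card (Prim (p ^ k)) + (p ^ (k - 1)) ^ 2 = (p ^ k) ^ 2 := by
  classical
  have : NeZero (p ^ k) := ⟨pow_ne_zero k hp.ne_zero⟩
  have hnu : Nat.card {a : ZMod (p ^ k) // ¬ IsUnit a} = p ^ (k - 1) := by
    have h := card_not_isUnit_zmod (p ^ k)
    rw [Nat.totient_prime_pow hp hk] at h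
    have : p ^ k = p ^ (k - 1) * p := by
      rw [← pow_succ, Nat.sub_add_cancel hk]
    have hp1 : 1 ≤ p := hp.one_lt.le
    have h3 : p ^ (k - 1) * (p - 1) + p ^ (k - 1) = p ^ (k - 1) * p := by
      rw [← Nat.mul_succ, Nat.succ_eq_add_one, Nat.sub_add_cancel hp1]
    omega
  have e1 : {v : ZMod (p ^ k) × ZMod (p ^ k) // ¬ IsCoprime v.1 v.2} ≃
      {a : ZMod (p ^ k) // ¬ IsUnit a} × {a : ZMod (p ^ k) // ¬ IsUnit a} :=
    (Equiv.subtypeEquivRight (fun v => by
      rw [isCoprime_iff_isUnit_or hp hk, not_or])).trans Equiv.subtypeProdEquivProd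
  have h2 := Fintype.card_subtype_compl (fun v : ZMod (p ^ k) × ZMod (p ^ k) => IsCoprime v.1 v.2)
  have h3 : Fintype.card {v : ZMod (p ^ k) × ZMod (p ^ k) // ¬ IsCoprime v.1 v.2} =
      p ^ (k - 1) * p ^ (k - 1) := by
    rw [Fintype.card_congr e1, Fintype.card_prod, ← Nat.card_eq_fintype_card, hnu]
  rw [h3, Fintype.card_prod, ZMod.card] at h2
  unfold Prim
  rw [Nat.card_eq_fintype_card]
  have hle : Fintype.card {v : ZMod (p ^ k) × ZMod (p ^ k) // IsCoprime v.1 v.2} ≤
      p ^ k * p ^ k := by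
    have := Fintype.card_subtype_le (fun v : ZMod (p ^ k) × ZMod (p ^ k) => IsCoprime v.1 v.2)
    rwa [Fintype.card_prod, ZMod.card] at this
  rw [sq, sq]
  omega

end PrimePower

section Psi

open ModularCurve ArithmeticFunction

/-- the indicator of squarefree numbers as an arithmetic function -/
noncomputable def sqInd : ArithmeticFunction ℕ :=
  ⟨fun n => if Squarefree n then 1 else 0, by simp⟩

theorem sqInd_apply (n : ℕ) : sqInd n = if Squarefree n then 1 else 0 := rfl

theorem isMultiplicative_sqInd : IsMultiplicative sqInd := by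
  refine ⟨by simp [sqInd_apply], ?_⟩
  intro m n h
  have hc : m.Coprime n := h
  rw [sqInd_apply, sqInd_apply, sqInd_apply]
  by_cases hm : Squarefree m
  · by_cases hn : Squarefree n
    · rw [if_pos hm, if_pos hn, if_pos (Nat.squarefree_mul_iff.mpr ⟨hc, hm, hn⟩), mul_one]
    · rw [if_neg hn, if_neg (fun h' => hn (Nat.squarefree_mul_iff.mp h').2.2), mul_zero]
  · rw [if_neg hm, if_neg (fun h' => hm (Nat.squarefree_mul_iff.mp h').2.1), zero_mul]

theorem dedekindPsi_eq (N : ℕ) : dedekindPsi N = (sqInd * ArithmeticFunction.id) N := by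
  rw [ArithmeticFunction.mul_apply, Nat.sum_divisorsAntidiagonal (fun i j => sqInd i * ArithmeticFunction.id j)]
  unfold dedekindPsi
  rw [Finset.sum_filter]
  refine Finset.sum_congr rfl (fun d _ => ?_)
  rw [sqInd_apply, ArithmeticFunction.id_apply]
  split_ifs <;> simp

theorem dedekindPsi_mul {m n : ℕ} (h : m.Coprime n) :
    dedekindPsi (m * n) = dedekindPsi m * dedekindPsi n := by
  rw [dedekindPsi_eq, dedekindPsi_eq, dedekindPsi_eq]
  exact (isMultiplicative_sqInd.mul isMultiplicative_id).map_mul_of_coprime h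

theorem dedekindPsi_prime_pow {p k : ℕ} (hp : p.Prime) (hk : 0 < k) :
    dedekindPsi (p ^ k) = p ^ k + p ^ (k - 1) := by
  unfold dedekindPsi
  rw [Finset.sum_filter, Nat.sum_divisors_prime_pow hp (f := fun d => if Squarefree d then p ^ k / d else 0)]
  obtain ⟨j, rfl⟩ : ∃ j, k = j + 1 := ⟨k - 1, by omega⟩
  rw [Finset.sum_range_succ', Finset.sum_range_succ']
  have hrest : ∑ i ∈ Finset.range j, (if Squarefree (p ^ (i + 1 + 1)) then p ^ (j + 1) / p ^ (i + 1 + 1) else 0) = 0 := by
    apply Finset.sum_eq_zero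
    intro i _
    rw [if_neg]
    rw [Nat.squarefree_pow_iff hp.ne_one (by omega)]
    omega
  rw [hrest]
  simp only [zero_add, pow_zero, pow_one, Nat.div_one, squarefree_one, if_true, Nat.add_sub_cancel]
  rw [if_pos hp.squarefree, pow_succ, Nat.mul_div_cancel _ hp.pos]
  ring

end Psi

section Assembly

open ModularCurve

theorem card_prim_one : Nat.card (Prim 1) = 1 := by
  have : Subsingleton (Prim 1) := by
    unfold Prim
    infer_instance
  have : Nonempty (Prim 1) := ⟨⟨(0, 0), ⟨0, 0, Subsingleton.elim _ _⟩⟩⟩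
  exact Nat.card_unique

theorem card_prim (N : ℕ) : N ≠ 0 → Nat.card (Prim N) = N.totient * dedekindPsi N := by
  induction N using Nat.recOnPosPrimePosCoprime with
  | prime_pow p k hp hk =>
    intro _
    have h1 := card_prim_prime_pow hp hk
    rw [Nat.totient_prime_pow hp hk, dedekindPsi_prime_pow hp hk]
    obtain ⟨j, rfl⟩ : ∃ j, k = j + 1 := ⟨k - 1, by omega⟩
    obtain ⟨q, rfl⟩ : ∃ q, p = q + 1 := ⟨p - 1, by have := hp.pos; omega⟩
    simp only [Nat.add_sub_cancel] at h1 ⊢
    have h2 : ((q + 1) ^ (j + 1)) ^ 2 =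
        (q + 1) ^ j * q * ((q + 1) ^ (j + 1) + (q + 1) ^ j) + ((q + 1) ^ j) ^ 2 := by
      ring
    omega
  | zero => intro h; exact absurd rfl h
  | one =>
    intro _
    rw [card_prim_one, Nat.totient_one, dedekindPsi_one]
  | coprime a b ha hb hab iha ihb =>
    intro _
    rw [card_prim_mul hab, Nat.totient_mul hab, dedekindPsi_mul hab, iha (by omega), ihb (by omega)]
    ring

theorem card_P1 (N : ℕ) [NeZero N] : Nat.card (P1 N) = dedekindPsi N := by
  have h1 := card_prim_eq N
  rw [card_prim N (NeZero.ne N), mul_comm] at h1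
  exact (Nat.eq_of_mul_eq_mul_right (Nat.totient_pos.mpr (NeZero.pos N)) h1).symm

end Assembly

end Fermat.Agent.S24.PartV
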