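-- Part V of the S24 project: Scott's lemma and the sign parity for three permutations with
-- product one generating a transitive group, in terms of orbit counts.
import Mathlib

set_option autoImplicit false

namespace Fermat.Agent.S24.PartV

open Module Submodule LinearMap

section Linear

variable {k V : Type*} [Field k] [AddCommGroup V] [Module k V] [FiniteDimensional k V]

/-- Scott's lemma, linear algebra core, for three operators with `A B C = 1`. -/
theorem scott_linear (A B C : V →ₗ[k] V) (h : A ∘ₗ B ∘ₗ C = LinearMap.id) :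
    finrank k V + finrank k ↥(range (1 - A) ⊔ range (1 - B) ⊔ range (1 - C)) ≤
      finrank k ↥(ker (1 - A) ⊓ ker (1 - B) ⊓ ker (1 - C)) +
        (finrank k ↥(range (1 - A)) + finrank k ↥(range (1 - B)) + finrank k ↥(range (1 - C))) := by
  have hABC : ∀ v, A (B (C v)) = v := fun v => by
    have := LinearMap.congr_fun h v
    simpa using this
  set WA := range (1 - A) with hWA
  set WB := range (1 - B) with hWB
  set WC := range (1 - C) with hWC
  -- the two maps
  let β : V →ₗ[k] (WA × WB × WC) :=
    (1 - A).rangeRestrict.prod ((1 - B).rangeRestrict.prod (1 - C).rangeRestrict)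
  let δ : (WA × WB × WC) →ₗ[k] V :=
    WA.subtype ∘ₗ LinearMap.fst k WA (WB × WC) +
      A ∘ₗ WB.subtype ∘ₗ LinearMap.fst k WB WC ∘ₗ LinearMap.snd k WA (WB × WC) +
      A ∘ₗ B ∘ₗ WC.subtype ∘ₗ LinearMap.snd k WB WC ∘ₗ LinearMap.snd k WA (WB × WC)
  have hδ : ∀ (a : WA) (b : WB) (c : WC), δ (a, b, c) = (a : V) + A (b : V) + A (B (c : V)) := by
    intro a b c
    simp [δ]
  have hβ : ∀ v, β v = (⟨(1 - A) v, LinearMap.mem_range_self _ v⟩,
      ⟨(1 - B) v, LinearMap.mem_range_self _ v⟩, ⟨(1 - C) v, LinearMap.mem_range_self _ v⟩) := by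
    intro v
    rfl
  have hcomp : δ ∘ₗ β = 0 := by
    ext v
    simp only [LinearMap.comp_apply, hβ, hδ, LinearMap.zero_apply, LinearMap.sub_apply,
      Module.End.one_apply, map_sub, hABC]
    abel
  have hle : range β ≤ ker δ := by
    rw [LinearMap.range_le_ker_iff]
    exact hcomp
  have hkerβ : ker β = ker (1 - A) ⊓ ker (1 - B) ⊓ ker (1 - C) := by
    simp only [β, LinearMap.ker_prod, inf_assoc]
    rw [LinearMap.ker_rangeRestrict, LinearMap.ker_rangeRestrict, LinearMap.ker_rangeRestrict]
  have h1 : finrank k ↥(range β) + finrank k ↥(ker β) = finrank k V :=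
    LinearMap.finrank_range_add_finrank_ker β
  have h2 : finrank k ↥(range δ) + finrank k ↥(ker δ) = finrank k (WA × WB × WC) :=
    LinearMap.finrank_range_add_finrank_ker δ
  have h3 : finrank k (WA × WB × WC) = finrank k WA + finrank k WB + finrank k WC := by
    rw [Module.finrank_prod, Module.finrank_prod, add_assoc]
  have h4 : finrank k ↥(range β) ≤ finrank k ↥(ker δ) := Submodule.finrank_mono hle
  have h5 : WA ⊔ WB ⊔ WC ≤ range δ := by
    refine sup_le (sup_le ?_ ?_) ?_
    · intro a ha
      exact ⟨(⟨a, ha⟩, 0, 0), by simp [hδ]⟩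
    · rintro _ ⟨v, rfl⟩
      refine ⟨(⟨(1 - A) ((1 - B) v), LinearMap.mem_range_self _ _⟩,
        ⟨(1 - B) v, LinearMap.mem_range_self _ _⟩, 0), ?_⟩
      simp only [hδ, LinearMap.sub_apply, Module.End.one_apply, map_sub, ZeroMemClass.coe_zero,
        map_zero]
      abel
    · rintro _ ⟨v, rfl⟩
      refine ⟨(0, 0, ⟨(1 - C) (C v), LinearMap.mem_range_self _ _⟩), ?_⟩
      simp only [hδ, LinearMap.sub_apply, Module.End.one_apply, map_sub, ZeroMemClass.coe_zero,
        map_zero, hABC]
      have := hABC v
      rw [← this]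
      simp [hABC]
  have h6 : finrank k ↥(WA ⊔ WB ⊔ WC) ≤ finrank k ↥(range δ) := Submodule.finrank_mono h5
  rw [← hkerβ]
  omega

end Linear


theorem finrank_span_singleton_le_one {K V : Type*} [Field K] [AddCommGroup V] [Module K V] (v : V) :
    finrank K ↥(span K {v}) ≤ 1 := by
  have := finrank_span_le_card (R := K) ({v} : Set V)
  simpa using this

section Perm

variable {G : Type*} [Group G] (X : Type*) [MulAction G X]

/-- Number of orbits of the cyclic subgroup generated by `g` acting on `X`. -/
noncomputable def orbCount (g : G) : ℕ :=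
  Nat.card (MulAction.orbitRel.Quotient (Subgroup.zpowers g) X)

/-- The operator `f ↦ f ∘ (g • ·)` on rational functions on `X`. -/
noncomputable def pullOp (g : G) : (X → ℚ) →ₗ[ℚ] (X → ℚ) :=
  LinearMap.funLeft ℚ ℚ (fun x : X => g • x)

variable {X}

@[simp] theorem pullOp_apply (g : G) (f : X → ℚ) (x : X) : pullOp X g f x = f (g • x) := rfl

theorem pullOp_mul (g h : G) : pullOp X (g * h) = pullOp X h ∘ₗ pullOp X g := by
  ext f x
  simp [mul_smul]

theorem pullOp_one : pullOp X (1 : G) = LinearMap.id := by
  ext f x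
  simp

theorem mem_ker_one_sub_pullOp (g : G) (f : X → ℚ) :
    f ∈ ker (1 - pullOp X g) ↔ ∀ x, f (g • x) = f x := by
  rw [LinearMap.mem_ker, LinearMap.sub_apply, Module.End.one_apply, sub_eq_zero]
  constructor
  · intro h x
    have := congrFun h x
    simpa using this.symm
  · intro h
    funext x
    simpa using (h x).symm

/-- the subgroup of elements preserving a function -/
def invSubgroup (f : X → ℚ) : Subgroup G where
  carrier := {g | ∀ x, f (g • x) = f x}
  mul_mem' := by
    intro a b ha hb x
    rw [mul_smul, ha, hb]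
  one_mem' := by
    intro x
    simp
  inv_mem' := by
    intro a ha x
    have := ha (a⁻¹ • x)
    rw [smul_inv_smul] at this
    exact this.symm

theorem mem_invSubgroup (f : X → ℚ) (g : G) : g ∈ invSubgroup (G := G) f ↔ ∀ x, f (g • x) = f x :=
  Iff.rfl

/-- the subgroup of elements `g` with `δ_{g y} - δ_y ∈ W` for all `y` -/
def congSubgroup [DecidableEq X] (W : Submodule ℚ (X → ℚ)) : Subgroup G where
  carrier := {g | ∀ y : X, (Pi.single (g • y) (1 : ℚ) - Pi.single y (1 : ℚ) : X → ℚ) ∈ W}
  mul_mem' := by
    intro a b ha hb y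
    have h1 := ha (b • y)
    have h2 := hb y
    have := W.add_mem h1 h2
    rw [mul_smul]
    convert this using 1
    abel
  one_mem' := by
    intro y
    simp
  inv_mem' := by
    intro a ha y
    have h1 := ha (a⁻¹ • y)
    rw [smul_inv_smul] at h1
    have := W.neg_mem h1
    convert this using 1
    abel

theorem one_sub_pullOp_single [DecidableEq X] (g : G) (z : X) :
    (1 - pullOp X g) (Pi.single z (1 : ℚ)) =
      (Pi.single z (1 : ℚ) - Pi.single (g⁻¹ • z) (1 : ℚ) : X → ℚ) := by
  funext x
  simp only [LinearMap.sub_apply, Module.End.one_apply, Pi.sub_apply, pullOp_apply, Pi.single_apply]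
  have : (g • x = z) ↔ (x = g⁻¹ • z) := by
    constructor
    · rintro rfl; simp
    · rintro rfl; simp
  simp only [this]

end Perm

section Main

variable {G : Type*} [Group G] {X : Type*} [MulAction G X] [Finite X]

theorem finrank_ker_one_sub_pullOp (g : G) :
    finrank ℚ ↥(ker (1 - pullOp X g)) = orbCount X g := by
  classical
  let Q := MulAction.orbitRel.Quotient (Subgroup.zpowers g) X
  let mk : X → Q := Quotient.mk''
  have hmk : Function.Surjective mk := Quotient.mk''_surjective
  let L : (Q → ℚ) →ₗ[ℚ] (X → ℚ) := LinearMap.funLeft ℚ ℚ mk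
  have hLmem : ∀ h : Q → ℚ, L h ∈ ker (1 - pullOp X g) := by
    intro h
    rw [mem_ker_one_sub_pullOp]
    intro x
    show h (mk (g • x)) = h (mk x)
    congr 1
    apply Quotient.sound
    show g • x ∈ MulAction.orbit (Subgroup.zpowers g) x
    exact ⟨⟨g, Subgroup.mem_zpowers g⟩, rfl⟩
  let L' : (Q → ℚ) →ₗ[ℚ] ↥(ker (1 - pullOp X g)) := L.codRestrict _ hLmem
  have hinj : Function.Injective L' := by
    intro h1 h2 h12
    have : L h1 = L h2 := congrArg Subtype.val h12
    exact LinearMap.funLeft_injective_of_surjective ℚ ℚ mk hmk this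
  have hsurj : Function.Surjective L' := by
    rintro ⟨f, hf⟩
    rw [mem_ker_one_sub_pullOp] at hf
    have hz : Subgroup.zpowers g ≤ invSubgroup (G := G) f := by
      rw [Subgroup.zpowers_le]
      exact hf
    refine ⟨Quotient.lift f ?_, ?_⟩
    · intro a b hab
      have hab' : a ∈ MulAction.orbit (Subgroup.zpowers g) b := hab
      obtain ⟨⟨k, hk⟩, rfl⟩ := hab'
      exact hz hk b
    · apply Subtype.ext
      funext x
      rfl
  have e : (Q → ℚ) ≃ₗ[ℚ] ↥(ker (1 - pullOp X g)) := LinearEquiv.ofBijective L' ⟨hinj, hsurj⟩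
  let _ : Fintype Q := Fintype.ofFinite Q
  rw [← e.finrank_eq, Module.finrank_fintype_fun_eq_card, orbCount, Nat.card_eq_fintype_card]

theorem finrank_range_one_sub_pullOp (g : G) :
    finrank ℚ ↥(range (1 - pullOp X g)) + orbCount X g = Nat.card X := by
  have := LinearMap.finrank_range_add_finrank_ker (1 - pullOp X g)
  rw [finrank_ker_one_sub_pullOp] at this
  rw [this]
  let _ : Fintype X := Fintype.ofFinite X
  rw [Module.finrank_fintype_fun_eq_card, Nat.card_eq_fintype_card]

/-- Scott's lemma for three elements with product one generating a transitive group. -/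
theorem orbCount_add_le (g₁ g₂ g₃ : G) (hprod : g₁ * g₂ * g₃ = 1)
    (hgen : Subgroup.closure {g₁, g₂, g₃} = ⊤) [MulAction.IsPretransitive G X] :
    orbCount X g₁ + orbCount X g₂ + orbCount X g₃ ≤ Nat.card X + 2 := by
  classical
  rcases isEmpty_or_nonempty X with hX | ⟨⟨x₀⟩⟩
  · have h0 : ∀ g : G, orbCount X g = 0 := by
      intro g
      have := finrank_range_one_sub_pullOp (X := X) g
      have hc : Nat.card X = 0 := Nat.card_eq_zero.mpr (Or.inl hX)
      omega
    simp [h0]
  let _ : Fintype X := Fintype.ofFinite X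
  set A := pullOp X g₃ with hA
  set B := pullOp X g₂ with hB
  set C := pullOp X g₁ with hC
  have hABC : A ∘ₗ B ∘ₗ C = LinearMap.id := by
    rw [hA, hB, hC, ← pullOp_mul, ← pullOp_mul, hprod, pullOp_one]
  have key := scott_linear A B C hABC
  -- invariants are constants
  have hinv : finrank ℚ ↥(ker (1 - A) ⊓ ker (1 - B) ⊓ ker (1 - C)) ≤ 1 := by
    have hle : ker (1 - A) ⊓ ker (1 - B) ⊓ ker (1 - C) ≤ span ℚ {(fun _ => 1 : X → ℚ)} := by
      intro f hf
      simp only [Submodule.mem_inf, mem_ker_one_sub_pullOp, hA, hB, hC] at hf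
      obtain ⟨⟨h3, h2⟩, h1⟩ := hf
      have htop : invSubgroup (G := G) f = ⊤ := by
        rw [eq_top_iff, ← hgen, Subgroup.closure_le]
        rintro g (rfl | rfl | rfl)
        · exact h1
        · exact h2
        · exact h3
      have hconst : ∀ x, f x = f x₀ := by
        intro x
        obtain ⟨g, rfl⟩ := MulAction.exists_smul_eq G x₀ x
        have : g ∈ invSubgroup (G := G) f := by rw [htop]; trivial
        exact this x₀
      rw [Submodule.mem_span_singleton]
      refine ⟨f x₀, ?_⟩
      funext x
      simp [hconst x]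
    calc finrank ℚ ↥(ker (1 - A) ⊓ ker (1 - B) ⊓ ker (1 - C))
        ≤ finrank ℚ ↥(span ℚ {(fun _ => 1 : X → ℚ)}) := Submodule.finrank_mono hle
      _ ≤ 1 := finrank_span_singleton_le_one _
  -- coinvariants
  set W := range (1 - A) ⊔ range (1 - B) ⊔ range (1 - C) with hW
  have hcoinv : Nat.card X ≤ finrank ℚ ↥W + 1 := by
    have hmemW : ∀ g ∈ ({g₁, g₂, g₃} : Set G), g ∈ congSubgroup (G := G) W := by
      intro g hg y
      have hrange : (Pi.single (g • y) (1 : ℚ) - Pi.single y (1 : ℚ) : X → ℚ)
          ∈ range (1 - pullOp X g) := by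
        refine ⟨Pi.single (g • y) 1, ?_⟩
        rw [one_sub_pullOp_single, inv_smul_smul]
      rcases hg with rfl | rfl | rfl
      · exact (le_sup_right : range (1 - C) ≤ W) hrange
      · exact (le_trans le_sup_right le_sup_left : range (1 - B) ≤ W) hrange
      · exact (le_trans le_sup_left le_sup_left : range (1 - A) ≤ W) hrange
    have htop : congSubgroup (G := G) W = ⊤ := by
      rw [eq_top_iff, ← hgen, Subgroup.closure_le]
      exact hmemW
    have hall : ∀ x : X, (Pi.single x (1 : ℚ) - Pi.single x₀ (1 : ℚ) : X → ℚ) ∈ W := by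
      intro x
      obtain ⟨g, rfl⟩ := MulAction.exists_smul_eq G x₀ x
      have : g ∈ congSubgroup (G := G) W := by rw [htop]; trivial
      exact this x₀
    have hsup : (⊤ : Submodule ℚ (X → ℚ)) ≤ W ⊔ span ℚ {(Pi.single x₀ (1 : ℚ) : X → ℚ)} := by
      intro f _
      have hf : f = ∑ x, f x • (Pi.single x (1 : ℚ) - Pi.single x₀ (1 : ℚ) : X → ℚ)
          + (∑ x, f x) • (Pi.single x₀ (1 : ℚ) : X → ℚ) := by
        simp only [smul_sub, Finset.sum_sub_distrib, Finset.sum_smul]
        rw [sub_add_cancel]
        funext y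
        simp [Finset.sum_apply, Pi.single_apply]
      rw [hf]
      refine Submodule.add_mem_sup ?_ ?_
      · exact Submodule.sum_mem _ (fun x _ => Submodule.smul_mem _ _ (hall x))
      · exact Submodule.smul_mem _ _ (Submodule.mem_span_singleton_self _)
    have h1 : finrank ℚ (X → ℚ) ≤ finrank ℚ ↥(W ⊔ span ℚ {(Pi.single x₀ (1 : ℚ) : X → ℚ)}) := by
      rw [← finrank_top ℚ (X → ℚ)]
      exact Submodule.finrank_mono hsup
    have h2 := Submodule.finrank_add_le_finrank_add_finrank W
      (span ℚ {(Pi.single x₀ (1 : ℚ) : X → ℚ)})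
    have h3 : finrank ℚ ↥(span ℚ {(Pi.single x₀ (1 : ℚ) : X → ℚ)}) ≤ 1 :=
      finrank_span_singleton_le_one _
    rw [Module.finrank_fintype_fun_eq_card, ← Nat.card_eq_fintype_card] at h1
    omega
  have r1 : finrank ℚ ↥(range (1 - C)) + orbCount X g₁ = Nat.card X :=
    finrank_range_one_sub_pullOp (X := X) g₁
  have r2 : finrank ℚ ↥(range (1 - B)) + orbCount X g₂ = Nat.card X :=
    finrank_range_one_sub_pullOp (X := X) g₂
  have r3 : finrank ℚ ↥(range (1 - A)) + orbCount X g₃ = Nat.card X :=
    finrank_range_one_sub_pullOp (X := X) g₃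
  have hV : finrank ℚ (X → ℚ) = Nat.card X := by
    rw [Module.finrank_fintype_fun_eq_card, Nat.card_eq_fintype_card]
  rw [hV] at key
  omega

end Main

open Equiv Equiv.Perm

section PermOrbits

variable {X : Type*} [Fintype X] [DecidableEq X]

/-- classify a point by the cycle through it -/
noncomputable def cycleClass (σ : Perm X) (x : X) :
    (Function.fixedPoints σ) ⊕ (σ.cycleFactorsFinset) :=
  if h : σ x = x then Sum.inl ⟨x, h⟩
  else Sum.inr ⟨σ.cycleOf x, cycleOf_mem_cycleFactorsFinset_iff.mpr (mem_support.mpr h)⟩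

theorem cycleClass_eq_iff (σ : Perm X) (x y : X) :
    cycleClass σ x = cycleClass σ y ↔ SameCycle σ x y := by
  unfold cycleClass
  constructor
  · intro h
    by_cases hx : σ x = x
    · by_cases hy : σ y = y
      · rw [dif_pos hx, dif_pos hy] at h
        have : x = y := congrArg Subtype.val (Sum.inl.inj h)
        rw [this]
      · rw [dif_pos hx, dif_neg hy] at h
        exact absurd h (by simp)
    · by_cases hy : σ y = y
      · rw [dif_neg hx, dif_pos hy] at h
        exact absurd h (by simp)
      · rw [dif_neg hx, dif_neg hy] at h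
        have h' : σ.cycleOf x = σ.cycleOf y := by simpa using h
        exact (sameCycle_iff_cycleOf_eq_of_mem_support (mem_support.mpr hx)
          (mem_support.mpr hy)).mpr h'
  · intro h
    by_cases hx : σ x = x
    · have : x = y := h.eq_of_left hx
      subst this
      rfl
    · have hy : ¬ σ y = y := fun hy => hx (h.apply_eq_self_iff.mpr hy)
      rw [dif_neg hx, dif_neg hy]
      congr 1
      exact Subtype.ext h.cycleOf_eq

theorem cycleClass_surjective (σ : Perm X) : Function.Surjective (cycleClass σ) := by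
  rintro (⟨x, hx⟩ | ⟨c, hc⟩)
  · refine ⟨x, ?_⟩
    have hx' : σ x = x := hx
    unfold cycleClass
    rw [dif_pos hx']
  · have hcyc := (mem_cycleFactorsFinset_iff.mp hc).1
    obtain ⟨a, ha⟩ := hcyc.nonempty_support
    have hsup : a ∈ σ.support := mem_cycleFactorsFinset_support_le hc ha
    refine ⟨a, ?_⟩
    unfold cycleClass
    rw [dif_neg (mem_support.mp hsup)]
    congr 1
    exact Subtype.ext (cycle_is_cycleOf ha hc).symm

theorem card_sameCycle_quotient (σ : Perm X) :
    Nat.card (Quotient (SameCycle.setoid σ)) + σ.cycleType.sum =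
      Fintype.card X + Multiset.card σ.cycleType := by
  have hbij : Function.Bijective
      (Quotient.lift (s := SameCycle.setoid σ) (cycleClass σ)
        (fun a b hab => (cycleClass_eq_iff σ a b).mpr hab)) := by
    constructor
    · intro q1 q2
      induction q1 using Quotient.inductionOn
      induction q2 using Quotient.inductionOn
      intro h
      apply Quotient.sound
      exact (cycleClass_eq_iff σ _ _).mp h
    · intro y
      obtain ⟨x, hx⟩ := cycleClass_surjective σ y
      exact ⟨Quotient.mk _ x, hx⟩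
  have hcard := Nat.card_eq_of_bijective _ hbij
  rw [hcard, Nat.card_eq_fintype_card, Fintype.card_sum, card_fixedPoints, Fintype.card_coe]
  have h1 : σ.cycleFactorsFinset.card = Multiset.card σ.cycleType := by
    rw [cycleType_def, Multiset.card_map]
    rfl
  have h2 := σ.sum_cycleType_le
  omega

theorem sign_eq_neg_one_pow (σ : Perm X) :
    Perm.sign σ = (-1 : ℤˣ) ^ (Fintype.card X + Nat.card (Quotient (SameCycle.setoid σ))) := by
  rw [sign_of_cycleType]
  have h := card_sameCycle_quotient σ
  have h2 := σ.sum_cycleType_le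
  have : Fintype.card X + Nat.card (Quotient (SameCycle.setoid σ)) =
      (σ.cycleType.sum + Multiset.card σ.cycleType) + 2 * (Fintype.card X - σ.cycleType.sum) := by
    omega
  rw [this, pow_add _ (σ.cycleType.sum + Multiset.card σ.cycleType), pow_mul]
  simp

end PermOrbits

section Parity

variable {G : Type*} [Group G] {X : Type*} [MulAction G X]

theorem orbCount_eq_card_sameCycle (g : G) :
    orbCount X g = Nat.card (Quotient (SameCycle.setoid (MulAction.toPerm g : Perm X))) := by
  unfold orbCount MulAction.orbitRel.Quotient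
  refine Nat.card_congr (Quotient.congr (Equiv.refl X) ?_)
  intro a b
  show a ∈ MulAction.orbit (Subgroup.zpowers g) b ↔ SameCycle (MulAction.toPerm g) a b
  constructor
  · rintro ⟨⟨h, k, rfl⟩, rfl⟩
    refine SameCycle.symm ⟨k, ?_⟩
    show ((MulAction.toPerm g : Perm X) ^ k) b = (g ^ k) • b
    rw [← MulAction.toPermHom_apply, ← map_zpow]
    rfl
  · rintro ⟨k, hk⟩
    refine ⟨⟨g ^ (-k), ⟨-k, rfl⟩⟩, ?_⟩
    show (g ^ (-k)) • b = a
    rw [← hk]
    have : ((MulAction.toPerm g : Perm X) ^ k) a = (g ^ k) • a := by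
      rw [← MulAction.toPermHom_apply, ← map_zpow]
      rfl
    rw [this, smul_smul, ← zpow_add]
    simp

variable [Finite X]

theorem even_orbCount_add (g₁ g₂ g₃ : G) (hprod : g₁ * g₂ * g₃ = 1) :
    Even (orbCount X g₁ + orbCount X g₂ + orbCount X g₃ + Nat.card X) := by
  classical
  let _ : Fintype X := Fintype.ofFinite X
  have h1 : Perm.sign (MulAction.toPerm g₁ : Perm X) * Perm.sign (MulAction.toPerm g₂ : Perm X)
      * Perm.sign (MulAction.toPerm g₃ : Perm X) = 1 := by
    rw [← map_mul, ← map_mul, ← MulAction.toPermHom_apply, ← MulAction.toPermHom_apply,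
      ← MulAction.toPermHom_apply, ← map_mul, ← map_mul, hprod, map_one, map_one]
  rw [sign_eq_neg_one_pow, sign_eq_neg_one_pow, sign_eq_neg_one_pow, ← orbCount_eq_card_sameCycle,
    ← orbCount_eq_card_sameCycle, ← orbCount_eq_card_sameCycle, ← pow_add, ← pow_add] at h1
  have hne : (-1 : ℤˣ) ≠ 1 := by decide
  rw [neg_one_pow_eq_one_iff_even hne] at h1
  rw [Nat.card_eq_fintype_card]
  have : Fintype.card X + orbCount X g₁ + (Fintype.card X + orbCount X g₂) +
      (Fintype.card X + orbCount X g₃) =
      (orbCount X g₁ + orbCount X g₂ + orbCount X g₃ + Fintype.card X) + 2 * Fintype.card X := by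
    ring
  rw [this] at h1
  rcases h1 with ⟨r, hr⟩
  exact ⟨r - Fintype.card X, by omega⟩

end Parity

section PrimeOrder

variable {X : Type*} [Fintype X] [DecidableEq X]

theorem prime_mul_card_sameCycle_quotient (σ : Perm X) {p : ℕ} (hp : p.Prime) (hσ : σ ^ p = 1) :
    p * Nat.card (Quotient (SameCycle.setoid σ)) =
      Fintype.card X + (p - 1) * Fintype.card (Function.fixedPoints σ) := by
  have h1 := card_sameCycle_quotient σ
  have h2 := card_fixedPoints σ
  have h3 := σ.sum_cycleType_le
  have hall : ∀ m ∈ σ.cycleType, m = p := by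
    intro m hm
    have hd : m ∣ p := (dvd_of_mem_cycleType hm).trans (orderOf_dvd_of_pow_eq_one hσ)
    have h2m := two_le_of_mem_cycleType hm
    rcases (Nat.dvd_prime hp).mp hd with h | h
    · omega
    · exact h
  have hsum : σ.cycleType.sum = Multiset.card σ.cycleType * p := by
    rw [Multiset.eq_replicate_card.mpr hall, Multiset.sum_replicate, Multiset.card_replicate,
      smul_eq_mul]
  rw [h2]
  obtain ⟨q, rfl⟩ : ∃ q, p = q + 1 := ⟨p - 1, by have := hp.pos; omega⟩
  simp only [Nat.add_sub_cancel]
  set c := Multiset.card σ.cycleType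
  set s := σ.cycleType.sum
  set Q := Nat.card (Quotient (SameCycle.setoid σ))
  set n := Fintype.card X
  have e1 : Q = n - s + c := by omega
  have : (q + 1) * (n - s + c) = n + q * (n - s) := by
    have hle : s ≤ n := h3
    obtain ⟨r, hr⟩ : ∃ r, n = s + r := ⟨n - s, by omega⟩
    rw [hr, Nat.add_sub_cancel_left, hsum]
    ring
  rw [e1, this]

end PrimeOrder

section PrimeOrderAction

variable {G : Type*} [Group G] {X : Type*} [MulAction G X] [Finite X]

theorem prime_mul_orbCount (g : G) {p : ℕ} (hp : p.Prime) (hg : ∀ x : X, g ^ p • x = x) :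
    p * orbCount X g = Nat.card X + (p - 1) * Nat.card (MulAction.fixedBy X g) := by
  classical
  let _ : Fintype X := Fintype.ofFinite X
  have hσ : (MulAction.toPerm g : Perm X) ^ p = 1 := by
    ext x
    rw [← MulAction.toPermHom_apply, ← map_pow]
    exact hg x
  have := prime_mul_card_sameCycle_quotient (MulAction.toPerm g : Perm X) hp hσ
  rw [← orbCount_eq_card_sameCycle] at this
  rw [this, Nat.card_eq_fintype_card, ← Nat.card_eq_fintype_card (α := Function.fixedPoints _)]
  rfl

end PrimeOrderAction


end Fermat.Agent.S24.PartV
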