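-- Part V of the S24 project: orbits of T on the projective line over ZMod N (cusps).
import Fermat.Agent.S24.PartV.P1
import Fermat.Agent.S24.PartV.Scott

set_option autoImplicit false

namespace Fermat.Agent.S24.PartV

open Matrix ModularGroup
open scoped MatrixGroups

namespace P1

variable {N : ℕ}

theorem T_zpow_smul_pt (k : ℤ) (A C : ℤ) (h : IsCoprime A C) :
    (T ^ k) • (pt A C h : P1 N) = pt (A + k * C) C (by
      obtain ⟨x, y, hxy⟩ := h
      exact ⟨x, y - x * k, by linarith⟩) := by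
  rw [smul_pt]
  congr 1
  · rw [ModularGroup.coe_T_zpow]; simp
  · rw [ModularGroup.coe_T_zpow]; simp

/-- the orbit relation for the powers of `T` -/
theorem orbitRel_T_iff (p q : P1 N) :
    (Quotient.mk'' p : MulAction.orbitRel.Quotient (Subgroup.zpowers T) (P1 N)) = Quotient.mk'' q ↔
      ∃ k : ℤ, (T ^ k) • q = p := by
  rw [Quotient.eq'']
  show p ∈ MulAction.orbit (Subgroup.zpowers T) q ↔ _
  constructor
  · rintro ⟨⟨g, k, rfl⟩, hg⟩
    exact ⟨k, hg⟩
  · rintro ⟨k, hk⟩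
    exact ⟨⟨T ^ k, k, rfl⟩, hk⟩

end P1

/-- the index set for the cusps of `Γ₀(N)` -/
def CuspIndex (N : ℕ) : Type := Σ d : {d : ℕ // d ∈ N.divisors}, (ZMod (Nat.gcd d.1 (N / d.1)))ˣ

theorem CuspIndex.gcd_pos {N : ℕ} (d : {d : ℕ // d ∈ N.divisors}) : 0 < Nat.gcd d.1 (N / d.1) :=
  Nat.gcd_pos_of_pos_left _ (Nat.pos_of_mem_divisors d.2)

instance CuspIndex.neZero {N : ℕ} (d : {d : ℕ // d ∈ N.divisors}) :
    NeZero (Nat.gcd d.1 (N / d.1)) := ⟨(CuspIndex.gcd_pos d).ne'⟩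

theorem card_cuspIndex (N : ℕ) : Nat.card (CuspIndex N) = ∑ d ∈ N.divisors, Nat.totient (Nat.gcd d (N / d)) := by
  classical
  unfold CuspIndex
  rw [Nat.card_eq_fintype_card, Fintype.card_sigma]
  rw [← Finset.sum_coe_sort N.divisors (fun d => Nat.totient (Nat.gcd d (N / d)))]
  refine Finset.sum_congr rfl (fun d _ => ?_)
  exact ZMod.card_units_eq_totient _

namespace CuspIndex

variable {N : ℕ} [NeZero N]

omit [NeZero N] in
theorem gcd_dvd_N (d : {d : ℕ // d ∈ N.divisors}) : Nat.gcd d.1 (N / d.1) ∣ N :=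
  (Nat.gcd_dvd_left _ _).trans (Nat.dvd_of_mem_divisors d.2)

theorem exists_lift (r : CuspIndex N) : ∃ a : ℤ, IsCoprime a (N : ℤ) ∧
    ((a : ℤ) : ZMod (Nat.gcd r.1.1 (N / r.1.1))) = (r.2 : ZMod (Nat.gcd r.1.1 (N / r.1.1))) := by
  obtain ⟨x, hx, hxv⟩ := exists_int_of_unit r.2
  obtain ⟨y, hyx, hyN⟩ := exists_lift_coprime (gcd_dvd_N r.1) hx
  refine ⟨y, hyN, ?_⟩
  rw [← hxv, ZMod.intCast_eq_intCast_iff]
  exact hyx

/-- an integer lift, coprime to `N`, of the unit component -/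
noncomputable def lift (r : CuspIndex N) : ℤ := (exists_lift r).choose

theorem lift_coprime (r : CuspIndex N) : IsCoprime (lift r) (N : ℤ) := (exists_lift r).choose_spec.1

theorem lift_cast (r : CuspIndex N) :
    ((lift r : ℤ) : ZMod (Nat.gcd r.1.1 (N / r.1.1))) = (r.2 : ZMod (Nat.gcd r.1.1 (N / r.1.1))) :=
  (exists_lift r).choose_spec.2

theorem lift_coprime_d (r : CuspIndex N) : IsCoprime (lift r) ((r.1.1 : ℕ) : ℤ) :=
  (lift_coprime r).of_isCoprime_of_dvd_right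
    (Int.natCast_dvd_natCast.mpr (Nat.dvd_of_mem_divisors r.1.2))

/-- the representative point of a cusp index -/
noncomputable def rep (r : CuspIndex N) : P1 N := P1.pt (lift r) (r.1.1 : ℕ) (lift_coprime_d r)

omit [NeZero N] in
/-- two divisors of `N` which are associated modulo `N` are equal -/
theorem eq_of_modEq_unit_mul {d d' : ℕ} (hd : d ∣ N) (hd' : d' ∣ N) {U : ℤ}
    (hU : IsCoprime U (N : ℤ)) (h : (d' : ℤ) ≡ U * d [ZMOD (N : ℤ)]) : d = d' := by
  apply Nat.dvd_antisymm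
  · -- d ∣ d'
    rw [← Int.natCast_dvd_natCast]
    obtain ⟨k, hk⟩ := Int.modEq_iff_dvd.mp h
    obtain ⟨m, hm⟩ := Int.natCast_dvd_natCast.mpr hd
    refine ⟨U - m * k, ?_⟩
    rw [hm] at hk
    linear_combination -hk
  · rw [← Int.natCast_dvd_natCast]
    obtain ⟨W, z, hWz⟩ := hU
    obtain ⟨k, hk⟩ := Int.modEq_iff_dvd.mp h
    obtain ⟨m, hm⟩ := Int.natCast_dvd_natCast.mpr hd'
    -- d = W U d + z N d = W (d' + N k) + z N d
    refine ⟨W + (W * k + z * d) * m, ?_⟩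
    rw [hm] at hk hWz
    linear_combination (-(d : ℤ)) * hWz + W * hk

end CuspIndex

namespace CuspIndex

variable {N : ℕ} [NeZero N]

theorem eq_of_rep_orbit {r r' : CuspIndex N} (h : ∃ k : ℤ, (T ^ k) • rep r' = rep r) : r = r' := by
  obtain ⟨k, hk⟩ := h
  unfold rep at hk
  rw [P1.T_zpow_smul_pt, P1.pt_eq_iff] at hk
  obtain ⟨U, hU, h1, h2⟩ := hk
  have hdd : r.1.1 = r'.1.1 :=
    eq_of_modEq_unit_mul (Nat.dvd_of_mem_divisors r.1.2) (Nat.dvd_of_mem_divisors r'.1.2) hU h2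
  have ha := lift_cast r
  have ha' := lift_cast r'
  revert ha ha' h1 h2
  generalize lift r = a
  generalize lift r' = a'
  obtain ⟨⟨d, hd⟩, v⟩ := r
  obtain ⟨⟨d', hd'⟩, v'⟩ := r'
  simp only at hdd
  subst hdd
  intro h1 h2 ha ha'
  simp only at h1 h2 ha ha'
  have hv : v = v' := by
    apply Units.ext
    rw [← ha, ← ha', ZMod.intCast_eq_intCast_iff, Int.modEq_iff_dvd]
    have hdN : d ∣ N := Nat.dvd_of_mem_divisors hd
    have hNd : (N : ℤ) = (d : ℤ) * ((N / d : ℕ) : ℤ) := by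
      rw [← Nat.cast_mul, Nat.mul_div_cancel' hdN]
    have hd0 : (d : ℤ) ≠ 0 := by
      have := Nat.pos_of_mem_divisors hd
      exact_mod_cast this.ne'
    obtain ⟨m1, hm1⟩ := Int.natCast_dvd_natCast.mpr (Nat.gcd_dvd_left d (N / d))
    obtain ⟨m2, hm2⟩ := Int.natCast_dvd_natCast.mpr (Nat.gcd_dvd_right d (N / d))
    obtain ⟨j, hj⟩ := Int.modEq_iff_dvd.mp h1
    obtain ⟨j2, hj2⟩ := Int.modEq_iff_dvd.mp h2
    have hU1 : U - 1 = ((N / d : ℕ) : ℤ) * j2 := by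
      apply mul_left_cancel₀ hd0
      rw [hNd] at hj2
      linear_combination hj2
    refine ⟨m2 * j2 * a - k * m1 - m1 * ((N / d : ℕ) : ℤ) * j, ?_⟩
    rw [hNd] at hj
    have e1 : ((N / d : ℕ) : ℤ) = ((Nat.gcd d (N / d) : ℕ) : ℤ) * m2 := hm2
    have e2 : (d : ℤ) = ((Nat.gcd d (N / d) : ℕ) : ℤ) * m1 := hm1
    linear_combination -hj + a * hU1 + (a * j2) * e1 - (k + ((N / d : ℕ) : ℤ) * j) * e2
  rw [hv]

end CuspIndex

namespace CuspIndex

variable {N : ℕ} [NeZero N]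

theorem exists_rep (p : P1 N) : ∃ (r : CuspIndex N) (k : ℤ), (T ^ k) • rep r = p := by
  obtain ⟨d, A, hdN, hAd, rfl⟩ := P1.exists_eq_pt p
  have hN0 : N ≠ 0 := NeZero.ne N
  have hd : d ∈ N.divisors := Nat.mem_divisors.mpr ⟨hdN, hN0⟩
  have hAg : IsCoprime A ((Nat.gcd d (N / d) : ℕ) : ℤ) :=
    hAd.of_isCoprime_of_dvd_right (Int.natCast_dvd_natCast.mpr (Nat.gcd_dvd_left d (N / d)))
  let r : CuspIndex N := ⟨⟨d, hd⟩, unitOfInt A hAg⟩
  have haN := lift_coprime r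
  have hcast := lift_cast r
  set a := lift r with ha
  have hcast' : (a : ZMod (Nat.gcd d (N / d))) = (A : ZMod (Nat.gcd d (N / d))) := hcast
  rw [ZMod.intCast_eq_intCast_iff, Int.modEq_iff_dvd] at hcast'
  obtain ⟨m, hm⟩ := hcast'
  have hNd : (N : ℤ) = (d : ℤ) * ((N / d : ℕ) : ℤ) := by
    rw [← Nat.cast_mul, Nat.mul_div_cancel' hdN]
  have hbez := Nat.gcd_eq_gcd_ab d (N / d)
  set x := Nat.gcdA d (N / d)
  set y := Nat.gcdB d (N / d)
  set M : ℤ := ((N / d : ℕ) : ℤ) with hM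
  obtain ⟨w, z, hwz⟩ := haN
  -- parameters
  set k : ℤ := x * m with hk
  set s : ℤ := y * m with hs
  set t : ℤ := s * w with ht
  set U : ℤ := 1 + M * t with hU
  have hAa : A - a = k * d + s * M := by
    rw [hm, hbez]; ring
  have hcong : U * (a + k * d) - A = (N : ℤ) * (t * k - M * s * z) := by
    rw [hNd]
    have hwz' : w * a = 1 - z * ((d : ℤ) * M) := by rw [← hNd]; linarith
    have : A = a + k * d + s * M := by linarith
    rw [this, hU, ht]
    linear_combination (M * s) * hwz'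
  refine ⟨r, k, ?_⟩
  show (T ^ k) • P1.pt a (d : ℤ) (lift_coprime_d r) = P1.pt A (d : ℤ) hAd
  rw [P1.T_zpow_smul_pt]
  symm
  rw [P1.pt_eq_iff]
  refine ⟨U, ?_, ?_, ?_⟩
  · rw [hNd]
    refine IsCoprime.mul_right ?_ ⟨1, -t, by rw [hU]; ring⟩
    obtain ⟨p', q', hpq⟩ := hAd
    refine ⟨p' * (a + k * d), q' - p' * M * (t * k - M * s * z), ?_⟩
    rw [hNd] at hcong
    linear_combination hpq + p' * hcong
  · rw [Int.modEq_iff_dvd]
    exact ⟨_, hcong⟩
  · rw [Int.modEq_iff_dvd]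
    exact ⟨t, by rw [hNd, hU]; ring⟩

end CuspIndex

/-- the number of orbits of `T` on the projective line is the number of cusp indices -/
theorem orbCount_T_P1 (N : ℕ) [NeZero N] : orbCount (P1 N) T = Nat.card (CuspIndex N) := by
  unfold orbCount
  symm
  refine Nat.card_congr (Equiv.ofBijective
    (fun r : CuspIndex N => (Quotient.mk'' (CuspIndex.rep r) :
      MulAction.orbitRel.Quotient (Subgroup.zpowers T) (P1 N))) ⟨?_, ?_⟩)
  · intro r r' h
    rw [P1.orbitRel_T_iff] at h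
    exact CuspIndex.eq_of_rep_orbit h
  · intro q
    obtain ⟨p, rfl⟩ := Quotient.mk''_surjective q
    obtain ⟨r, k, hk⟩ := CuspIndex.exists_rep p
    refine ⟨r, ?_⟩
    show (Quotient.mk'' (CuspIndex.rep r) :
      MulAction.orbitRel.Quotient (Subgroup.zpowers T) (P1 N)) = Quotient.mk'' p
    rw [P1.orbitRel_T_iff]
    exact ⟨-k, by rw [← hk, ← mul_smul, ← _root_.zpow_add]; simp⟩

end Fermat.Agent.S24.PartV
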