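-- Part V of the S24 project: fixed points of S and S*T on the projective line over ZMod N.
import Fermat.Agent.S24.PartV.P1
import Fermat.Agent.S24.PartV.Scott

set_option autoImplicit false

namespace Fermat.Agent.S24.PartV

open Matrix ModularGroup
open scoped MatrixGroups

section Transfer

variable {G : Type*} [Group G] {X Y : Type*} [MulAction G X] [MulAction G Y]

theorem orbCount_congr (e : X ≃ Y) (he : ∀ (g : G) (x : X), e (g • x) = g • e x) (g : G) :
    orbCount X g = orbCount Y g := by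
  unfold orbCount MulAction.orbitRel.Quotient
  refine Nat.card_congr (Quotient.congr e ?_)
  intro a b
  show a ∈ MulAction.orbit (Subgroup.zpowers g) b ↔ e a ∈ MulAction.orbit (Subgroup.zpowers g) (e b)
  constructor
  · rintro ⟨⟨h, hh⟩, rfl⟩
    exact ⟨⟨h, hh⟩, (he h b).symm⟩
  · rintro ⟨⟨h, hh⟩, hab⟩
    refine ⟨⟨h, hh⟩, e.injective ?_⟩
    rw [← hab]
    exact he h b

theorem card_fixedBy_congr (e : X ≃ Y) (he : ∀ (g : G) (x : X), e (g • x) = g • e x) (g : G) :
    Nat.card (MulAction.fixedBy X g) = Nat.card (MulAction.fixedBy Y g) := by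
  refine Nat.card_congr (e.subtypeEquiv ?_)
  intro a
  rw [MulAction.mem_fixedBy, MulAction.mem_fixedBy, ← he]
  exact e.injective.eq_iff.symm

end Transfer

namespace Prim

variable {N : ℕ}

theorem S_smul_fst (v : Prim N) : (S • v).1.1 = - v.1.2 := by
  rw [sl_smul_fst]
  simp [ModularGroup.coe_S]

theorem S_smul_snd (v : Prim N) : (S • v).1.2 = v.1.1 := by
  rw [sl_smul_snd]
  simp [ModularGroup.coe_S]

theorem T_smul_fst (v : Prim N) : (T • v).1.1 = v.1.1 + v.1.2 := by
  rw [sl_smul_fst]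
  simp [ModularGroup.coe_T]

theorem T_smul_snd (v : Prim N) : (T • v).1.2 = v.1.2 := by
  rw [sl_smul_snd]
  simp [ModularGroup.coe_T]

theorem ST_smul_fst (v : Prim N) : ((S * T) • v).1.1 = - v.1.2 := by
  rw [mul_smul, S_smul_fst, T_smul_snd]

theorem ST_smul_snd (v : Prim N) : ((S * T) • v).1.2 = v.1.1 + v.1.2 := by
  rw [mul_smul, S_smul_snd, T_smul_fst]

end Prim

namespace Prim

variable {N : ℕ}

/-- the pair `(x, 1)` -/
def affine (x : ZMod N) : Prim N := ⟨(x, 1), isCoprime_one_right⟩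

/-- the pair `(1, x)` -/
def affine' (x : ZMod N) : Prim N := ⟨(1, x), isCoprime_one_left⟩

@[simp] theorem affine_fst (x : ZMod N) : (affine x).1.1 = x := rfl
@[simp] theorem affine_snd (x : ZMod N) : (affine x).1.2 = 1 := rfl
@[simp] theorem affine'_fst (x : ZMod N) : (affine' x).1.1 = 1 := rfl
@[simp] theorem affine'_snd (x : ZMod N) : (affine' x).1.2 = x := rfl

end Prim

namespace P1

variable {N : ℕ}

/-- the affine point `(x : 1)` -/
def affine (x : ZMod N) : P1 N := mk (Prim.affine x)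

/-- the point `(1 : x)` -/
def affine' (x : ZMod N) : P1 N := mk (Prim.affine' x)

theorem affine_injective : Function.Injective (affine : ZMod N → P1 N) := by
  intro x y h
  unfold affine at h
  rw [mk_eq_mk_iff] at h
  obtain ⟨u, hu⟩ := h
  have h1 := congrArg (fun w : Prim N => w.1.1) hu
  have h2 := congrArg (fun w : Prim N => w.1.2) hu
  simp only [Prim.units_smul_fst, Prim.units_smul_snd, Prim.affine_fst, Prim.affine_snd,
    mul_one] at h1 h2
  rw [h2, one_mul] at h1
  exact h1.symm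

theorem affine'_injective : Function.Injective (affine' : ZMod N → P1 N) := by
  intro x y h
  unfold affine' at h
  rw [mk_eq_mk_iff] at h
  obtain ⟨u, hu⟩ := h
  have h1 := congrArg (fun w : Prim N => w.1.1) hu
  have h2 := congrArg (fun w : Prim N => w.1.2) hu
  simp only [Prim.units_smul_fst, Prim.units_smul_snd, Prim.affine'_fst, Prim.affine'_snd,
    mul_one] at h1 h2
  rw [h1, one_mul] at h2
  exact h2.symm

theorem S_smul_affine_of_root {x : ZMod N} (hx : x ^ 2 + 1 = 0) : S • affine x = affine x := by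
  unfold affine
  rw [smul_mk, mk_eq_mk_iff]
  have hu : x * (-x) = 1 := by linear_combination -hx
  refine ⟨Units.mkOfMulEqOne x (-x) hu, ?_⟩
  ext
  · rw [Prim.units_smul_fst, Prim.S_smul_fst]
    show x * x = -1
    linear_combination hx
  · rw [Prim.units_smul_snd, Prim.S_smul_snd]
    show x * 1 = x
    ring

theorem exists_root_of_S_smul_eq {p : P1 N} (hp : S • p = p) :
    ∃ x : ZMod N, x ^ 2 + 1 = 0 ∧ p = affine x := by
  obtain ⟨v, rfl⟩ := mk_surjective p
  rw [smul_mk, mk_eq_mk_iff] at hp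
  obtain ⟨u, hu⟩ := hp
  have h1 := congrArg (fun w : Prim N => w.1.1) hu
  have h2 := congrArg (fun w : Prim N => w.1.2) hu
  simp only [Prim.units_smul_fst, Prim.units_smul_snd, Prim.S_smul_fst, Prim.S_smul_snd] at h1 h2
  -- h1 : u * a = -c, h2 : u * c = a
  obtain ⟨s, t, hst⟩ := v.2
  set a := v.1.1 with ha
  set c := v.1.2 with hc
  have hcw : c * (s * u + t) = 1 := by
    rw [← h2] at hst
    linear_combination hst
  have hroot : (u : ZMod N) ^ 2 + 1 = 0 := by
    have h3 : ((u : ZMod N) ^ 2 + 1) * c = 0 := by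
      rw [← h2] at h1
      linear_combination h1
    calc (u : ZMod N) ^ 2 + 1 = ((u : ZMod N) ^ 2 + 1) * (c * (s * u + t)) := by rw [hcw, mul_one]
      _ = ((u : ZMod N) ^ 2 + 1) * c * (s * u + t) := by ring
      _ = 0 := by rw [h3, zero_mul]
  refine ⟨(u : ZMod N), hroot, ?_⟩
  unfold affine
  rw [mk_eq_mk_iff]
  refine ⟨Units.mkOfMulEqOne c (s * u + t) hcw, ?_⟩
  ext
  · show c * (u : ZMod N) = a
    rw [mul_comm]; exact h2
  · show c * 1 = c
    ring

theorem ST_smul_affine'_of_root {x : ZMod N} (hx : x ^ 2 + x + 1 = 0) :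
    (S * T) • affine' x = affine' x := by
  unfold affine'
  rw [smul_mk, mk_eq_mk_iff]
  have hu : (-x) * (x + 1) = 1 := by linear_combination -hx
  refine ⟨Units.mkOfMulEqOne (-x) (x + 1) hu, ?_⟩
  ext
  · rw [Prim.units_smul_fst, Prim.ST_smul_fst]
    show -x * 1 = -x
    ring
  · rw [Prim.units_smul_snd, Prim.ST_smul_snd]
    show -x * x = 1 + x
    linear_combination -hx

theorem exists_root_of_ST_smul_eq {p : P1 N} (hp : (S * T) • p = p) :
    ∃ x : ZMod N, x ^ 2 + x + 1 = 0 ∧ p = affine' x := by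
  obtain ⟨v, rfl⟩ := mk_surjective p
  rw [smul_mk, mk_eq_mk_iff] at hp
  obtain ⟨u, hu⟩ := hp
  have h1 := congrArg (fun w : Prim N => w.1.1) hu
  have h2 := congrArg (fun w : Prim N => w.1.2) hu
  simp only [Prim.units_smul_fst, Prim.units_smul_snd, Prim.ST_smul_fst, Prim.ST_smul_snd] at h1 h2
  -- h1 : u * a = -c, h2 : u * c = a + c
  obtain ⟨s, t, hst⟩ := v.2
  set a := v.1.1 with ha
  set c := v.1.2 with hc
  have hc' : c = -(u : ZMod N) * a := by linear_combination h1
  have haw : a * (s - t * u) = 1 := by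
    rw [hc'] at hst
    linear_combination hst
  have hroot : (u : ZMod N) ^ 2 - u + 1 = 0 := by
    have h3 : ((u : ZMod N) ^ 2 - u + 1) * a = 0 := by
      rw [hc'] at h2
      linear_combination -h2
    calc (u : ZMod N) ^ 2 - u + 1 = ((u : ZMod N) ^ 2 - u + 1) * (a * (s - t * u)) := by
          rw [haw, mul_one]
      _ = ((u : ZMod N) ^ 2 - u + 1) * a * (s - t * u) := by ring
      _ = 0 := by rw [h3, zero_mul]
  refine ⟨-(u : ZMod N), by linear_combination hroot, ?_⟩
  unfold affine'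
  rw [mk_eq_mk_iff]
  refine ⟨Units.mkOfMulEqOne a (s - t * u) haw, ?_⟩
  ext
  · show a * 1 = a
    ring
  · show a * (-(u : ZMod N)) = c
    rw [hc']; ring

theorem card_fixedBy_S (N : ℕ) :
    Nat.card (MulAction.fixedBy (P1 N) S) = Nat.card {x : ZMod N // x ^ 2 + 1 = 0} := by
  symm
  refine Nat.card_congr (Equiv.ofBijective
    (fun x => ⟨affine x.1, S_smul_affine_of_root x.2⟩) ⟨?_, ?_⟩)
  · intro x y h
    exact Subtype.ext (affine_injective (congrArg Subtype.val h))
  · rintro ⟨p, hp⟩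
    obtain ⟨x, hx, rfl⟩ := exists_root_of_S_smul_eq hp
    exact ⟨⟨x, hx⟩, rfl⟩

theorem card_fixedBy_ST (N : ℕ) :
    Nat.card (MulAction.fixedBy (P1 N) (S * T)) = Nat.card {x : ZMod N // x ^ 2 + x + 1 = 0} := by
  symm
  refine Nat.card_congr (Equiv.ofBijective
    (fun x => ⟨affine' x.1, ST_smul_affine'_of_root x.2⟩) ⟨?_, ?_⟩)
  · intro x y h
    exact Subtype.ext (affine'_injective (congrArg Subtype.val h))
  · rintro ⟨p, hp⟩
    obtain ⟨x, hx, rfl⟩ := exists_root_of_ST_smul_eq hp
    exact ⟨⟨x, hx⟩, rfl⟩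

end P1

end Fermat.Agent.S24.PartV
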