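-- Part V of the S24 project: combinatorics of SL(2,Z)/Gamma0(N): index, elliptic points, cusps,
-- Scott inequality, parity, and the final genus numerics.
import Fermat.Agent.S24.PartV.Count
import Fermat.Agent.S24.PartV.Cusps
import Fermat.Agent.S24.PartV.Elliptic

set_option autoImplicit false

namespace Fermat.Agent.S24.PartV

open Matrix ModularGroup CongruenceSubgroup ModularCurve
open scoped MatrixGroups

section TrivialPowers

variable {N : ℕ}

theorem S_sq_smul (p : P1 N) : S ^ 2 • p = p := by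
  obtain ⟨v, rfl⟩ := P1.mk_surjective p
  rw [pow_two, mul_smul, P1.smul_mk, P1.smul_mk, P1.mk_eq_mk_iff]
  refine ⟨-1, ?_⟩
  ext
  · rw [Prim.units_smul_fst, Prim.S_smul_fst, Prim.S_smul_snd]
    simp
  · rw [Prim.units_smul_snd, Prim.S_smul_snd, Prim.S_smul_fst]
    simp

theorem ST_cube_smul (p : P1 N) : (S * T) ^ 3 • p = p := by
  obtain ⟨v, rfl⟩ := P1.mk_surjective p
  rw [pow_succ, pow_two, mul_smul, mul_smul, P1.smul_mk, P1.smul_mk, P1.smul_mk, P1.mk_eq_mk_iff]
  refine ⟨-1, ?_⟩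
  ext
  · simp only [Prim.units_smul_fst, Prim.ST_smul_fst, Prim.ST_smul_snd, Units.val_neg,
      Units.val_one]
    ring
  · simp only [Prim.units_smul_snd, Prim.ST_smul_fst, Prim.ST_smul_snd, Units.val_neg,
      Units.val_one]
    ring

end TrivialPowers

section Coset

variable (N : ℕ) [NeZero N]

instance finite_coset : Finite (SL(2, ℤ) ⧸ Gamma0 N) := by
  obtain ⟨e, _⟩ := exists_equiv_P1 N
  exact Finite.of_equiv _ e.symm

/-- the index of `Γ₀(N)` -/
theorem card_coset : Nat.card (SL(2, ℤ) ⧸ Gamma0 N) = dedekindPsi N := by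
  obtain ⟨e, _⟩ := exists_equiv_P1 N
  rw [Nat.card_congr e, card_P1]

theorem index_Gamma0 : (Gamma0 N).index = dedekindPsi N := by
  rw [Subgroup.index, card_coset]

/-- elliptic points of order two -/
theorem card_fixedBy_S : Nat.card (MulAction.fixedBy (SL(2, ℤ) ⧸ Gamma0 N) S) = nuTwo N := by
  obtain ⟨e, he⟩ := exists_equiv_P1 N
  rw [card_fixedBy_congr e he, P1.card_fixedBy_S]
  rfl

/-- elliptic points of order three -/
theorem card_fixedBy_ST :
    Nat.card (MulAction.fixedBy (SL(2, ℤ) ⧸ Gamma0 N) (S * T)) = nuThree N := by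
  obtain ⟨e, he⟩ := exists_equiv_P1 N
  rw [card_fixedBy_congr e he, P1.card_fixedBy_ST]
  rfl

/-- the number of cusps -/
theorem orbCount_T : orbCount (SL(2, ℤ) ⧸ Gamma0 N) T = cuspCount N := by
  obtain ⟨e, he⟩ := exists_equiv_P1 N
  rw [orbCount_congr e he, orbCount_T_P1, card_cuspIndex]
  rfl

theorem two_mul_orbCount_S :
    2 * orbCount (SL(2, ℤ) ⧸ Gamma0 N) S = dedekindPsi N + nuTwo N := by
  obtain ⟨e, he⟩ := exists_equiv_P1 N
  have h := prime_mul_orbCount (X := SL(2, ℤ) ⧸ Gamma0 N) S Nat.prime_two (by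
    intro x
    apply e.injective
    rw [he, S_sq_smul])
  rw [h, card_coset, card_fixedBy_S]
  ring

theorem three_mul_orbCount_ST :
    3 * orbCount (SL(2, ℤ) ⧸ Gamma0 N) (S * T) = dedekindPsi N + 2 * nuThree N := by
  obtain ⟨e, he⟩ := exists_equiv_P1 N
  have h := prime_mul_orbCount (X := SL(2, ℤ) ⧸ Gamma0 N) (S * T) Nat.prime_three (by
    intro x
    apply e.injective
    rw [he, ST_cube_smul])
  rw [h, card_coset, card_fixedBy_ST]

/-- Scott's inequality (nonnegativity of the genus) -/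
theorem orbCount_add_le_coset :
    orbCount (SL(2, ℤ) ⧸ Gamma0 N) S + orbCount (SL(2, ℤ) ⧸ Gamma0 N) T
      + orbCount (SL(2, ℤ) ⧸ Gamma0 N) (S * T) ≤ dedekindPsi N + 2 := by
  have hgen : Subgroup.closure ({S, T, (S * T)⁻¹} : Set SL(2, ℤ)) = ⊤ := by
    rw [eq_top_iff, ← SpecialLinearGroup.SL2Z_generators]
    apply Subgroup.closure_mono
    intro x hx
    rcases hx with rfl | rfl
    · exact Or.inl rfl
    · exact Or.inr (Or.inl rfl)
  have h := orbCount_add_le (X := SL(2, ℤ) ⧸ Gamma0 N) S T (S * T)⁻¹ (by group) hgen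
  rw [card_coset] at h
  have hinv : orbCount (SL(2, ℤ) ⧸ Gamma0 N) (S * T)⁻¹ = orbCount (SL(2, ℤ) ⧸ Gamma0 N) (S * T) := by
    unfold orbCount
    rw [Subgroup.zpowers_inv]
  rw [hinv] at h
  exact h

/-- parity (integrality of the genus) -/
theorem even_orbCount_add_coset :
    Even (orbCount (SL(2, ℤ) ⧸ Gamma0 N) S + orbCount (SL(2, ℤ) ⧸ Gamma0 N) T
      + orbCount (SL(2, ℤ) ⧸ Gamma0 N) (S * T) + dedekindPsi N) := by
  have h := even_orbCount_add (X := SL(2, ℤ) ⧸ Gamma0 N) S T (S * T)⁻¹ (by group)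
  rw [card_coset] at h
  have hinv : orbCount (SL(2, ℤ) ⧸ Gamma0 N) (S * T)⁻¹ = orbCount (SL(2, ℤ) ⧸ Gamma0 N) (S * T) := by
    unfold orbCount
    rw [Subgroup.zpowers_inv]
  rw [hinv] at h
  exact h

end Coset

section Numerics

variable (N : ℕ) [NeZero N]

/-- Final numerics: the Riemann–Hurwitz count for `SL(2,ℤ)/Γ₀(N)` is `2g - 2` with `g` a natural
number equal to the classical genus formula. -/
theorem exists_genus :
    ∃ g : ℕ, (g : ℚ) = genusFormula N ∧
      (2 * (g : ℤ) - 2 = -2 * (dedekindPsi N : ℤ)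
        + ((dedekindPsi N : ℤ) - (orbCount (SL(2, ℤ) ⧸ Gamma0 N) T : ℤ))
        + ((dedekindPsi N : ℤ) - (orbCount (SL(2, ℤ) ⧸ Gamma0 N) (S * T) : ℤ))
        + ((dedekindPsi N : ℤ) - (orbCount (SL(2, ℤ) ⧸ Gamma0 N) S : ℤ))) := by
  have h2 := two_mul_orbCount_S N
  have h3 := three_mul_orbCount_ST N
  have hT := orbCount_T N
  have hle := orbCount_add_le_coset N
  obtain ⟨r, hr⟩ := even_orbCount_add_coset N
  set n := dedekindPsi N with hn
  set oS := orbCount (SL(2, ℤ) ⧸ Gamma0 N) S with hoS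
  set oT := orbCount (SL(2, ℤ) ⧸ Gamma0 N) T with hoT
  set oU := orbCount (SL(2, ℤ) ⧸ Gamma0 N) (S * T) with hoU
  have hrle : r ≤ n + 1 := by omega
  refine ⟨n + 1 - r, ?_, ?_⟩
  · unfold genusFormula
    rw [← hn, ← hT]
    have e2 : (2 : ℚ) * oS = n + nuTwo N := by exact_mod_cast h2
    have e3 : (3 : ℚ) * oU = n + 2 * nuThree N := by exact_mod_cast h3
    have er : (oS : ℚ) + oT + oU + n = r + r := by exact_mod_cast hr
    rw [Nat.cast_sub hrle]
    push_cast
    linarith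
  · have er : (oS : ℤ) + oT + oU + n = r + r := by exact_mod_cast hr
    rw [Nat.cast_sub hrle]
    push_cast
    linarith

end Numerics

end Fermat.Agent.S24.PartV
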